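import Mathlib
import Fermat.Agent.LT.T7.H57.FoldSpec5
import Fermat.Agent.LT.T1.H671.HaarScale

/-!
# Row LT, tower T7, leaf T7.14.6a-F.17 `PLTransC57` (registry 2215)

OFF-MAIN (helper317).  Left invariance of the left Haar measure `|y|⁻¹ dν(x) dτ(y) dτ(z)` of
`B(𝔸)` in the coordinates `P = 𝔸 × 𝔸ˣ × 𝔸ˣ`:
`∫_P f(p₀ ⋆ p) ω dλ = ∫_P f ω dλ`, `p₀ ⋆ (x, y, z) = (x₀ + y₀ x, y₀ y, z₀ z)`.

* `plTransC_of317 : T1.AdNormC K → T1.LocCompC K → T1.H671.HaarScaleC K → H57.PLTransC57 K`;
* `plTransC317 : T1.AdNormC K → T1.LocCompC K → H57.PLTransC57 K` (with `haarScaleC671` of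
  helper671, byte-identical copy of its closure).

Proof: the map `T p = p₀ ⋆ p` is a product of three measurable maps; the image of `λ = ν ⊗ τ ⊗ τ`
under `T` is `|y₀|⁻¹ λ` (Haar scaling of `ν` by the idele `y₀`, invariance of `ν` under
translations, left invariance of `τ`), and `ω(p) = |y₀| ω(T p)`.
-/

set_option autoImplicit false
set_option linter.style.haveILetI false

open IsDedekindDomain NumberField MeasureTheory
open scoped ENNReal

noncomputable section

namespace Fermat.Agent.LT.T7.H317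

open Fermat.Agent.LT.H556 Fermat.Agent.LT.H556.A0 Fermat.Agent.LT Fermat.Agent.LT.T7.H57

variable (K : Type) [Field K] [NumberField K]

theorem nrm57_eq317 (y : (Adl K)ˣ) : nrm57 K y = T1.adNorm K (y : Adl K) := rfl

theorem units_sct317 [SecondCountableTopology (Adl K)] : SecondCountableTopology (Adl K)ˣ := by
  haveI : SecondCountableTopology (Adl K)ᵐᵒᵖ :=
    (MulOpposite.opHomeomorph (M := Adl K)).symm.isEmbedding.secondCountableTopology
  exact (Units.isEmbedding_embedProduct (M := Adl K)).secondCountableTopology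

theorem units_lc317 [LocallyCompactSpace (Adl K)] [T2Space (Adl K)] :
    LocallyCompactSpace (Adl K)ˣ := by
  haveI : LocallyCompactSpace (Adl K)ᵐᵒᵖ :=
    (MulOpposite.opHomeomorph (M := Adl K)).symm.isClosedEmbedding.locallyCompactSpace
  exact (Units.isClosedEmbedding_embedProduct (α := Adl K)).locallyCompactSpace

theorem plTransC_of317 (hN : T1.AdNormC K) (hLC : T1.LocCompC K)
    (hS : T1.H671.HaarScaleC K) : PLTransC57 K := by
  unfold PLTransC57
  letI mA : MeasurableSpace (Adl K) := borel (Adl K)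
  letI mX : MeasurableSpace (Adl K)ˣ := borel (Adl K)ˣ
  haveI : BorelSpace (Adl K) := ⟨rfl⟩
  haveI : BorelSpace (Adl K)ˣ := ⟨rfl⟩
  haveI := hLC.1.1
  haveI := hLC.1.2.1
  haveI := hLC.1.2.2
  haveI : SecondCountableTopology (Adl K)ˣ := units_sct317 K
  haveI : LocallyCompactSpace (Adl K)ˣ := units_lc317 K
  show ∀ ν : Measure (Adl K), ν.IsAddHaarMeasure →
    ∀ τ : Measure (Adl K)ˣ, τ.IsHaarMeasure →
    ∀ f : PB57 K → ℝ≥0∞, Measurable f → ∀ p₀ : PB57 K,
      ∫⁻ p, f (mulP57 K p₀ p) * om57 K p ∂(ν.prod (τ.prod τ))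
        = ∫⁻ p, f p * om57 K p ∂(ν.prod (τ.prod τ))
  intro ν hν τ hτ f hf p₀
  haveI := hν
  haveI := hτ
  obtain ⟨x₀, y₀, z₀⟩ := p₀
  obtain ⟨hNpos, hNmul, -, hNcont⟩ := hN
  have hy₀pos : 0 < nrm57 K y₀ := hNpos y₀
  set c : ℝ≥0∞ := ENNReal.ofReal (nrm57 K y₀) with hc
  have hc0 : c ≠ 0 := by
    rw [hc]
    exact (ENNReal.ofReal_pos.mpr hy₀pos).ne'
  have hctop : c ≠ ⊤ := ENNReal.ofReal_ne_top
  -- the norm of the inverse
  have hone : nrm57 K (1 : (Adl K)ˣ) = 1 := by
    have h1 := hNmul 1 1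
    rw [mul_one] at h1
    have h2 : 0 < T1.adNorm K ((1 : (Adl K)ˣ) : Adl K) := hNpos 1
    rw [nrm57_eq317]
    nlinarith
  have hinv : nrm57 K y₀⁻¹ = (nrm57 K y₀)⁻¹ := by
    have h1 := hNmul y₀ y₀⁻¹
    rw [mul_inv_cancel] at h1
    have h2 : nrm57 K y₀ * nrm57 K y₀⁻¹ = 1 := by
      rw [nrm57_eq317, nrm57_eq317, ← h1, ← nrm57_eq317, hone]
    exact eq_inv_of_mul_eq_one_right h2
  -- the three maps
  set A : Adl K → Adl K := fun x => x₀ + (y₀ : Adl K) * x with hAdef
  set Ly : (Adl K)ˣ → (Adl K)ˣ := fun y => y₀ * y with hLydef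
  set Lz : (Adl K)ˣ → (Adl K)ˣ := fun z => z₀ * z with hLzdef
  have hA : Measurable A :=
    (continuous_const.add (continuous_const.mul continuous_id)).measurable
  have hLy : Measurable Ly := (continuous_const.mul continuous_id).measurable
  have hLz : Measurable Lz := (continuous_const.mul continuous_id).measurable
  have hT : (fun p : PB57 K => mulP57 K (x₀, y₀, z₀) p) = Prod.map A (Prod.map Ly Lz) := by
    funext p
    rfl
  have hTm : Measurable (Prod.map A (Prod.map Ly Lz)) := hA.prodMap (hLy.prodMap hLz)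
  -- images of the measures
  have hmapA : Measure.map A ν = c⁻¹ • ν := by
    ext S hSm
    rw [Measure.map_apply hA hSm, Measure.smul_apply, smul_eq_mul]
    have hpre : A ⁻¹' S
        = (fun u : Adl K => ((y₀⁻¹ : (Adl K)ˣ) : Adl K) * u) '' ((fun u => x₀ + u) ⁻¹' S) := by
      ext x
      constructor
      · intro hx
        refine ⟨(y₀ : Adl K) * x, hx, ?_⟩
        simp
      · rintro ⟨u, hu, rfl⟩
        show x₀ + (y₀ : Adl K) * (((y₀⁻¹ : (Adl K)ˣ) : Adl K) * u) ∈ S
        rw [← mul_assoc, Units.mul_inv, one_mul]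
        exact hu
    rw [hpre, hS ν hν y₀⁻¹, measure_preimage_add, ← nrm57_eq317, hinv,
      ENNReal.ofReal_inv_of_pos hy₀pos]
  have hmapLy : Measure.map Ly τ = τ := map_mul_left_eq_self τ y₀
  have hmapLz : Measure.map Lz τ = τ := map_mul_left_eq_self τ z₀
  have hmapT : Measure.map (Prod.map A (Prod.map Ly Lz)) (ν.prod (τ.prod τ))
      = c⁻¹ • (ν.prod (τ.prod τ)) := by
    rw [← Measure.map_prod_map _ _ hA (hLy.prodMap hLz), ← Measure.map_prod_map _ _ hLy hLz,
      hmapA, hmapLy, hmapLz, Measure.prod_smul_left]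
  -- the weight
  have hnrm : Measurable fun y : (Adl K)ˣ => nrm57 K y := hNcont.measurable
  have hom : Measurable (om57 K) := by
    unfold om57
    exact ENNReal.measurable_ofReal.comp
      ((hnrm.comp (measurable_fst.comp measurable_snd)).inv)
  have homT : ∀ p : PB57 K, om57 K p = c * om57 K (Prod.map A (Prod.map Ly Lz) p) := by
    intro p
    show ENNReal.ofReal ((nrm57 K p.2.1)⁻¹)
      = ENNReal.ofReal (nrm57 K y₀) * ENNReal.ofReal ((nrm57 K (y₀ * p.2.1))⁻¹)
    have h1 : nrm57 K (y₀ * p.2.1) = nrm57 K y₀ * nrm57 K p.2.1 := hNmul y₀ p.2.1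
    rw [h1, ← ENNReal.ofReal_mul hy₀pos.le]
    congr 1
    field_simp
  have hg : Measurable fun q : PB57 K => f q * (c * om57 K q) :=
    hf.mul (measurable_const.mul hom)
  calc ∫⁻ p, f (mulP57 K (x₀, y₀, z₀) p) * om57 K p ∂(ν.prod (τ.prod τ))
      = ∫⁻ p, (fun q : PB57 K => f q * (c * om57 K q)) (Prod.map A (Prod.map Ly Lz) p)
          ∂(ν.prod (τ.prod τ)) := by
        refine lintegral_congr (fun p => ?_)
        show f (mulP57 K (x₀, y₀, z₀) p) * om57 K p = _
        rw [homT p]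
        rfl
    _ = ∫⁻ q, f q * (c * om57 K q) ∂(Measure.map (Prod.map A (Prod.map Ly Lz))
          (ν.prod (τ.prod τ))) := (lintegral_map hg hTm).symm
    _ = c⁻¹ * ∫⁻ q, f q * (c * om57 K q) ∂(ν.prod (τ.prod τ)) := by
        rw [hmapT, lintegral_smul_measure, smul_eq_mul]
    _ = c⁻¹ * (c * ∫⁻ q, f q * om57 K q ∂(ν.prod (τ.prod τ))) := by
        congr 1
        rw [← lintegral_const_mul c
          (show Measurable (fun q : PB57 K => f q * om57 K q) from hf.mul hom)]
        refine lintegral_congr (fun q => ?_)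
        ring
    _ = ∫⁻ q, f q * om57 K q ∂(ν.prod (τ.prod τ)) := by
        rw [← mul_assoc, ENNReal.inv_mul_cancel hc0 hctop, one_mul]

/-- **T7.14.6a-F.17 `PLTransC57`** with the Haar scaling of helper671. -/
theorem plTransC317 (hN : T1.AdNormC K) (hLC : T1.LocCompC K) : PLTransC57 K :=
  plTransC_of317 K hN hLC (T1.H671.haarScaleC671 K)

end Fermat.Agent.LT.T7.H317

end
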