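import Mathlib
import Fermat.Agent.LT.T7.H193.ProjSpec

/-!
# Row LT, tower T7, node T7.L2.1, leaf P11 `TorusDataAsmC` (registry 2146)

OFF-MAIN (helper317).  Proves `Fermat.Agent.LT.T7.H193.TorusDataAsmC K` VERBATIM:
`PosScalC K → UnitInvC K → DirichletC K → TorusMeanC → TorusDataC K`.

`a` from `PosScalC`; the ray generator has the components `t₀` at infinity, `t₀^{2n} = 2`, so
`c = log t₀ ≠ 0`; `b` from `DirichletC 𝔑 c`; `D` from `TorusMeanC b`; the function
`t ↦ e (g * a t)` has the periods `b i`: `a (b i) = r` (`IsAutomorphicFn.ray`; an element of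
`GL₂(𝔸_K)` is determined by its components) or `a (b i) = |ε|_∞` (`UnitInvC`).
-/

set_option autoImplicit false

open IsDedekindDomain NumberField MeasureTheory

noncomputable section

namespace Fermat.Agent.LT.T7.H317

open Fermat.Agent.LT.H556 Fermat.Agent.LT.H556.A0 Fermat.Agent.LT Fermat.Agent.LT.T7.H193

variable {K : Type} [Field K] [NumberField K]

/-- An element of `GL₂(𝔸_K)` is determined by its components. -/
theorem g_ext317 (g h : G K) (hinf : ∀ w : InfinitePlace K, infComp w g = infComp w h)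
    (hfin : ∀ v : HeightOneSpectrum (𝓞 K), finComp v g = finComp v h) : g = h := by
  apply Units.ext
  ext i j
  apply Prod.ext
  · funext w
    apply (InfinitePlace.Completion.extensionEmbedding w).injective
    exact congrFun (congrFun (hinf w) i) j
  · apply FiniteAdeleRing.ext
    intro v
    exact congrFun (congrFun (hfin v) i) j

/-- **T7.L2.1.P11 `TorusDataAsmC`** (VERBATIM). -/
theorem torusDataAsmC317 (K : Type) [Field K] [NumberField K] : TorusDataAsmC K := by
  intro hPos hUnit hDir hMean 𝔑 h𝔑 r hr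
  obtain ⟨a, ha_cont, ha_mul, ha_inf, ha_fin, ha_central⟩ := hPos
  obtain ⟨hrfin, t₀, ht₀pos, ht₀pow, hrinf⟩ := hr
  have hc : Real.log t₀ ≠ 0 := by
    intro h0
    rcases Real.log_eq_zero.mp h0 with h | h | h
    · linarith
    · rw [h, one_pow] at ht₀pow
      norm_num at ht₀pow
    · linarith
  obtain ⟨b, hb⟩ := hDir 𝔑 h𝔑 (Real.log t₀) hc
  obtain ⟨D, hDm, hDb, hDp, hDmean⟩ := hMean (InfinitePlace K) b
  refine ⟨a, D, ⟨ha_cont, ha_mul, ha_inf, ha_fin, ha_central, hDm, hDb, hDp, ?_⟩⟩
  intro e he _ g s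
  refine hDmean (fun t => e (g * a t)) (fun i t => ?_) s
  show e (g * a (t + b i)) = e (g * a t)
  rw [ha_mul, ← mul_assoc]
  rcases hb i with h | ⟨ε, hε, h⟩
  · have hr' : a (b i) = r := by
      apply g_ext317
      · intro w
        rw [ha_inf, hrinf, h, Real.exp_log ht₀pos]
      · intro v
        rw [show finComp v (a (b i)) = 1 from ha_fin (b i) v, show finComp v r = 1 from hrfin v]
    rw [hr']
    exact he.ray _
  · refine hUnit 𝔑 r e he ε hε (a (b i)) (ha_fin (b i)) (fun w => ?_) _
    have hpos : 0 < w (((ε : 𝓞 K)) : K) := by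
      apply (InfinitePlace.pos_iff).mpr
      have : (ε : 𝓞 K) ≠ 0 := ε.ne_zero
      exact_mod_cast this
    rw [ha_inf, h, Real.exp_log hpos]

end Fermat.Agent.LT.T7.H317

end
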