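import Fermat.Agent.LT.T7.H305.MatchCut
import Fermat.Agent.LT.T1.H317.Local
import Fermat.Agent.LT.T5.H277.Unfold
import Fermat.Agent.LT.H11.SC
import Fermat.Agent.LT.T7.H159.HaarSplit

/-!
# Row LT, tower T7, node C2.7 `CutIntC305`: `GL₂(𝔸_K)` IS A RESTRICTED PRODUCT (helper317)

OFF-MAIN.  ASSET for the leaves `HaarSplitC305`, `TorSplitC305` (and the nodes `FactDownC305`,
`FactUpC305`) of `T7/H305/MatchCut.lean`.  No hole, nothing assumed.  ADDITIVE (suffix `_r317`).

For a finite set `S` of finite places let `E_S = {y : OutT305 S y}` and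
`p_S = compHom_r317 S : GL₂(𝔸_K) →* ∏_{v ∈ S} GL₂(K_v) × ∏_w GL₂(ℂ)` (`= compS305 S`).

* `isOpen_outT_r317` : `E_S` is open;
* `continuous_compHom_r317` : `p_S` is continuous;
* `exists_mem_outT_r317` : (`K` totally complex) `p_S` maps `E_S` ONTO the target;
* `proper_compHom_r317` : `p_S` is proper on `E_S`: `E_S ∩ p_S⁻¹(C)` lies in a compact set for
  every compact `C`.
-/

set_option autoImplicit false

open IsDedekindDomain NumberField MeasureTheory
open IsDedekindDomain.HeightOneSpectrum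

noncomputable section

namespace Fermat.Agent.LT.T7.H317

open Fermat.Agent.LT.H556 Fermat.Agent.LT.H556.A0 Fermat.Agent.LT.T7 Fermat.Agent.LT.T7.H305
open Fermat.Agent.LT.T1.H317

variable {K : Type} [Field K] [NumberField K]

/-! ## 1. Compact sets of adeles -/

/-- A nonzero integer of valuation `≤ exp (-n)` at every place of `S`. -/
theorem exists_den_r317 (S : Finset (HeightOneSpectrum (𝓞 K))) (n : ℕ) :
    ∃ d : 𝓞 K, d ≠ 0 ∧ ∀ v ∈ S,
      v.valuation K (algebraMap (𝓞 K) K d) ≤ WithZero.exp (-(n : ℤ)) := by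
  classical
  induction S using Finset.induction_on with
  | empty => exact ⟨1, one_ne_zero, fun v hv => absurd hv (Finset.notMem_empty v)⟩
  | insert v S hv ih =>
    obtain ⟨d, hd0, hd⟩ := ih
    obtain ⟨ϖ, hϖ, hϖ0⟩ := Submodule.exists_mem_ne_zero_of_ne_bot v.ne_bot
    refine ⟨d * ϖ ^ n, mul_ne_zero hd0 (pow_ne_zero n hϖ0), fun u hu => ?_⟩
    rw [map_mul, map_mul, map_pow, map_pow]
    rcases Finset.mem_insert.mp hu with rfl | huS
    · have h1 : u.valuation K (algebraMap (𝓞 K) K d) ≤ 1 := valuation_le_one u d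
      have h2 : u.valuation K (algebraMap (𝓞 K) K ϖ) ≤ WithZero.exp (-1 : ℤ) :=
        (lt_one_iff_le_exp317 _).1 ((valuation_lt_one_iff_mem u ϖ).2 hϖ)
      calc u.valuation K (algebraMap (𝓞 K) K d) * u.valuation K (algebraMap (𝓞 K) K ϖ) ^ n
          ≤ 1 * (WithZero.exp (-1 : ℤ)) ^ n := mul_le_mul' h1 (pow_le_pow_left' h2 n)
        _ = WithZero.exp (-(n : ℤ)) := by
            rw [one_mul, ← WithZero.exp_nsmul]
            congr 1
            simp
    · have h1 := hd u huS
      have h2 : u.valuation K (algebraMap (𝓞 K) K ϖ) ≤ 1 := valuation_le_one u ϖ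
      calc u.valuation K (algebraMap (𝓞 K) K d) * u.valuation K (algebraMap (𝓞 K) K ϖ) ^ n
          ≤ WithZero.exp (-(n : ℤ)) * 1 := mul_le_mul' h1 (pow_le_one' h2 n)
        _ = WithZero.exp (-(n : ℤ)) := mul_one _

/-- The adeles which are bounded by `n` at the infinite places, by `exp n` at the places of `S`
and integral outside `S`. -/
def bigBox_r317 (S : Finset (HeightOneSpectrum (𝓞 K))) (n : ℕ) : Set (Adl K) :=
  {x | (∀ w : InfinitePlace K, ‖x.1 w‖ ≤ n) ∧
    (∀ v ∈ S, Valued.v (x.2 v) ≤ WithZero.exp (n : ℤ)) ∧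
    ∀ v : HeightOneSpectrum (𝓞 K), v ∉ S → Valued.v (x.2 v) ≤ 1}

theorem algebraMap_snd_r317 (d : K) (v : HeightOneSpectrum (𝓞 K)) :
    (algebraMap K (Adl K) d).2 v = algebraMap K (v.adicCompletion K) d := rfl

/-- `bigBox_r317 S n` lies in a compact set. -/
theorem bigBox_subset_compact_r317 (S : Finset (HeightOneSpectrum (𝓞 K))) (n : ℕ) :
    ∃ A : Set (Adl K), IsCompact A ∧ bigBox_r317 S n ⊆ A := by
  obtain ⟨d, hd0, hd⟩ := exists_den_r317 S n
  have hdK : algebraMap (𝓞 K) K d ≠ 0 := by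
    simpa using hd0
  set D : Adl K := algebraMap K (Adl K) (algebraMap (𝓞 K) K d) with hD
  set Dinv : Adl K := algebraMap K (Adl K) (algebraMap (𝓞 K) K d)⁻¹ with hDinv
  have hDD : Dinv * D = 1 := by
    rw [hD, hDinv, ← map_mul, inv_mul_cancel₀ hdK, map_one]
  set R : ℝ := (∑ w : InfinitePlace K, ‖D.1 w‖) * n with hR
  refine ⟨(fun y => Dinv * y) '' box317 K R,
    (isCompact_box317 K R).image (continuous_const.mul continuous_id), ?_⟩
  intro x hx
  refine ⟨D * x, ⟨fun w => ?_, fun v => ?_⟩, ?_⟩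
  · rw [mul_fst317, norm_mul, hR]
    refine mul_le_mul ?_ (hx.1 w) (norm_nonneg _) ?_
    · exact Finset.single_le_sum (f := fun w : InfinitePlace K => ‖D.1 w‖)
        (fun _ _ => norm_nonneg _) (Finset.mem_univ w)
    · exact Finset.sum_nonneg fun _ _ => norm_nonneg _
  · rw [mul_snd317, mem_adicCompletionIntegers, map_mul]
    have e : Valued.v (D.2 v) = v.valuation K (algebraMap (𝓞 K) K d) :=
      valuedAdicCompletion_eq_valuation' v _
    rw [e]
    by_cases hv : v ∈ S
    · calc v.valuation K (algebraMap (𝓞 K) K d) * Valued.v (x.2 v)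
          ≤ WithZero.exp (-(n : ℤ)) * WithZero.exp (n : ℤ) := mul_le_mul' (hd v hv) (hx.2.1 v hv)
        _ = 1 := by rw [← WithZero.exp_add, neg_add_cancel, WithZero.exp_zero]
    · calc v.valuation K (algebraMap (𝓞 K) K d) * Valued.v (x.2 v)
          ≤ 1 * 1 := mul_le_mul' (valuation_le_one v d) (hx.2.2 v hv)
        _ = 1 := one_mul 1
  · show Dinv * (D * x) = x
    rw [← mul_assoc, hDD, one_mul]

/-! ## 2. Compact sets of `GL₂(𝔸_K)` -/

/-- The elements of `GL₂(𝔸_K)` whose entries and the entries of whose inverse lie in a compact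
set form a compact set. -/
theorem isCompact_entries_r317 {A : Set (Adl K)} (hA : IsCompact A) :
    IsCompact {y : G K | ∀ i j, (y : Matrix (Fin 2) (Fin 2) (Adl K)) i j ∈ A ∧
      ((y⁻¹ : G K) : Matrix (Fin 2) (Fin 2) (Adl K)) i j ∈ A} := by
  have : T2Space (Adl K) := Fermat.Agent.LT.H11.LC.t2Space_adeleRing_h11 K
  have : T2Space (Matrix (Fin 2) (Fin 2) (Adl K)) :=
    Fermat.Agent.LT.H11.LC.t2Space_matrix_h11 (Fin 2) (Adl K)
  set B : Set (Matrix (Fin 2) (Fin 2) (Adl K)) :=
    {M | ∀ i j, M i j ∈ A} with hBdef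
  have hB : IsCompact B := by
    have e : B = Set.univ.pi fun _ : Fin 2 => Set.univ.pi fun _ : Fin 2 => A := by
      ext M
      exact ⟨fun h i _ j _ => h i j, fun h i j => h i (Set.mem_univ i) j (Set.mem_univ j)⟩
    rw [e]
    exact isCompact_univ_pi fun _ => isCompact_univ_pi fun _ => hA
  have hB' : IsCompact (MulOpposite.op '' B) := hB.image MulOpposite.continuous_op
  have hemb := Units.isClosedEmbedding_embedProduct (α := Matrix (Fin 2) (Fin 2) (Adl K))
  have hc := hemb.isCompact_preimage (hB.prod hB')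
  have e : {y : G K | ∀ i j, (y : Matrix (Fin 2) (Fin 2) (Adl K)) i j ∈ A ∧
      ((y⁻¹ : G K) : Matrix (Fin 2) (Fin 2) (Adl K)) i j ∈ A}
      = (Units.embedProduct (Matrix (Fin 2) (Fin 2) (Adl K))) ⁻¹' (B ×ˢ (MulOpposite.op '' B)) := by
    ext y
    constructor
    · intro h
      refine ⟨fun i j => (h i j).1, ⟨((y⁻¹ : G K) : Matrix (Fin 2) (Fin 2) (Adl K)),
        fun i j => (h i j).2, rfl⟩⟩
    · rintro ⟨h1, M, hM, hMy⟩ i j
      refine ⟨h1 i j, ?_⟩
      have e2 : M = ((y⁻¹ : G K) : Matrix (Fin 2) (Fin 2) (Adl K)) :=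
        MulOpposite.op_injective hMy
      rw [← e2]
      exact hM i j
  rw [e]
  exact hc

/-! ## 3. `E_S` is open -/

/-- The adeles which are integral outside `S`, as an additive subgroup. -/
def intOut_r317 (S : Finset (HeightOneSpectrum (𝓞 K))) : AddSubgroup (Adl K) where
  carrier := {x | ∀ v : HeightOneSpectrum (𝓞 K), v ∉ S → x.2 v ∈ v.adicCompletionIntegers K}
  zero_mem' := fun v _ => zero_mem _
  add_mem' := fun {a b} ha hb v hv => by
    show (a + b).2 v ∈ _
    rw [add_snd317]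
    exact add_mem (ha v hv) (hb v hv)
  neg_mem' := fun {a} ha v hv => by
    show (-a).2 v ∈ _
    have : (-a).2 v = -(a.2 v) := rfl
    rw [this]
    exact neg_mem (ha v hv)

theorem isOpen_intOut_r317 (S : Finset (HeightOneSpectrum (𝓞 K))) :
    IsOpen (intOut_r317 S : Set (Adl K)) := by
  refine AddSubgroup.isOpen_of_mem_nhds (intOut_r317 S) (g := 0) ?_
  have hopen : IsOpen ((Set.univ : Set (InfiniteAdeleRing K)) ×ˢ intFin317 K) :=
    isOpen_univ.prod (isOpen_intFin317 K)
  have h0 : (0 : Adl K) ∈ (Set.univ : Set (InfiniteAdeleRing K)) ×ˢ intFin317 K :=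
    ⟨Set.mem_univ _, fun v => zero_mem _⟩
  refine Filter.mem_of_superset (hopen.mem_nhds h0) ?_
  rintro x ⟨-, hx⟩ v -
  exact hx v

theorem continuous_entry_r317 (i j : Fin 2) :
    Continuous fun y : G K => (y : Matrix (Fin 2) (Fin 2) (Adl K)) i j :=
  (Units.continuous_val).matrix_elem i j

theorem continuous_inv_entry_r317 (i j : Fin 2) :
    Continuous fun y : G K => ((y⁻¹ : G K) : Matrix (Fin 2) (Fin 2) (Adl K)) i j :=
  (Units.continuous_coe_inv).matrix_elem i j

theorem outT_iff_r317 (S : Finset (HeightOneSpectrum (𝓞 K))) (y : G K) :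
    OutT305 S y ↔ ∀ i j, (y : Matrix (Fin 2) (Fin 2) (Adl K)) i j ∈ intOut_r317 S ∧
      ((y⁻¹ : G K) : Matrix (Fin 2) (Fin 2) (Adl K)) i j ∈ intOut_r317 S := by
  constructor
  · intro h i j
    exact ⟨fun v hv => (h v hv).1 i j, fun v hv => (h v hv).2 i j⟩
  · intro h v hv
    exact ⟨fun i j => (h i j).1 v hv, fun i j => (h i j).2 v hv⟩

/-- **`E_S` is open.** -/
theorem isOpen_outT_r317 (S : Finset (HeightOneSpectrum (𝓞 K))) :
    IsOpen {y : G K | OutT305 S y} := by
  have e : {y : G K | OutT305 S y}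
      = ⋂ i : Fin 2, ⋂ j : Fin 2,
        ((fun y : G K => (y : Matrix (Fin 2) (Fin 2) (Adl K)) i j) ⁻¹' (intOut_r317 S : Set (Adl K))
          ∩ (fun y : G K => ((y⁻¹ : G K) : Matrix (Fin 2) (Fin 2) (Adl K)) i j) ⁻¹'
            (intOut_r317 S : Set (Adl K))) := by
    ext y
    simp only [Set.mem_iInter, Set.mem_inter_iff, Set.mem_preimage, SetLike.mem_coe]
    exact outT_iff_r317 S y
  rw [e]
  refine isOpen_iInter_of_finite fun i => isOpen_iInter_of_finite fun j => ?_
  exact ((isOpen_intOut_r317 S).preimage (continuous_entry_r317 i j)).inter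
    ((isOpen_intOut_r317 S).preimage (continuous_inv_entry_r317 i j))

theorem coe_finGL_r317 (v : HeightOneSpectrum (𝓞 K)) (g : G K) :
    ((finGL305 v g : GL (Fin 2) (v.adicCompletion K)) :
      Matrix (Fin 2) (Fin 2) (v.adicCompletion K)) = finComp v g := rfl

/-- `E_S` as a subgroup. -/
def outSub_r317 (S : Finset (HeightOneSpectrum (𝓞 K))) : Subgroup (G K) where
  carrier := {y | OutT305 S y}
  one_mem' := by
    intro v _
    have h1 : finComp v (1 : G K) = 1 := by
      rw [← coe_finGL_r317, map_one]; rfl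
    have h2 : finComp v (1 : G K)⁻¹ = 1 := by rw [inv_one]; exact h1
    refine ⟨fun i j => ?_, fun i j => ?_⟩
    · rw [h1, Matrix.one_apply]; split_ifs
      · exact one_mem _
      · exact zero_mem _
    · rw [h2, Matrix.one_apply]; split_ifs
      · exact one_mem _
      · exact zero_mem _
  mul_mem' := by
    intro a b ha hb v hv
    have e1 : finComp v (a * b) = finComp v a * finComp v b := by
      rw [← coe_finGL_r317, map_mul]; rfl
    have e2 : finComp v (a * b)⁻¹ = finComp v b⁻¹ * finComp v a⁻¹ := by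
      rw [mul_inv_rev, ← coe_finGL_r317, map_mul]; rfl
    refine ⟨fun i j => ?_, fun i j => ?_⟩
    · rw [e1, Matrix.mul_apply]
      exact sum_mem fun k _ => mul_mem ((ha v hv).1 i k) ((hb v hv).1 k j)
    · rw [e2, Matrix.mul_apply]
      exact sum_mem fun k _ => mul_mem ((hb v hv).2 i k) ((ha v hv).2 k j)
  inv_mem' := by
    intro a ha v hv
    refine ⟨(ha v hv).2, ?_⟩
    rw [inv_inv]
    exact (ha v hv).1

theorem coe_outSub_r317 (S : Finset (HeightOneSpectrum (𝓞 K))) :
    (outSub_r317 S : Set (G K)) = {y | OutT305 S y} := rfl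

/-! ## 4. The projection `p_S` -/

/-- The target of `p_S`. -/
abbrev Tgt_r317 (K : Type) [Field K] [NumberField K] (S : Finset (HeightOneSpectrum (𝓞 K))) :
    Type :=
  (∀ v : S, GL (Fin 2) ((v : HeightOneSpectrum (𝓞 K)).adicCompletion K)) ×
    (InfinitePlace K → GL (Fin 2) ℂ)

/-- `p_S` as a homomorphism. -/
def compHom_r317 (S : Finset (HeightOneSpectrum (𝓞 K))) : G K →* Tgt_r317 K S :=
  MonoidHom.prod (MonoidHom.pi fun v : S => finGL305 (v : HeightOneSpectrum (𝓞 K)))
    (MonoidHom.pi fun w : InfinitePlace K => infGL305 w)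

theorem compHom_eq_r317 (S : Finset (HeightOneSpectrum (𝓞 K))) (y : G K) :
    compHom_r317 S y = compS305 S y := rfl

theorem continuous_finHom_r317 (v : HeightOneSpectrum (𝓞 K)) :
    Continuous (T5.finHom v : Adl K → v.adicCompletion K) :=
  (RestrictedProduct.continuous_eval v).comp continuous_snd

theorem continuous_infHom_r317 (w : InfinitePlace K) :
    Continuous (T5.infHom w : Adl K → ℂ) :=
  (InfinitePlace.Completion.isometry_extensionEmbedding w).continuous.comp
    ((continuous_apply w).comp continuous_fst)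

theorem continuous_finGL_r317 (v : HeightOneSpectrum (𝓞 K)) :
    Continuous (finGL305 v : G K → GL (Fin 2) (v.adicCompletion K)) :=
  Fermat.Agent.LT.T5.H277.continuous_GLmap277 _ (continuous_finHom_r317 v)

theorem continuous_infGL_r317 (w : InfinitePlace K) :
    Continuous (infGL305 w : G K → GL (Fin 2) ℂ) :=
  Fermat.Agent.LT.T5.H277.continuous_GLmap277 _ (continuous_infHom_r317 w)

/-- **`p_S` is continuous.** -/
theorem continuous_compHom_r317 (S : Finset (HeightOneSpectrum (𝓞 K))) :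
    Continuous (compHom_r317 S : G K → Tgt_r317 K S) :=
  (continuous_pi fun v : S => continuous_finGL_r317 (v : HeightOneSpectrum (𝓞 K))).prodMk
    (continuous_pi fun w => continuous_infGL_r317 w)

/-! ## 5. `p_S` is proper on `E_S` -/

theorem exists_le_exp_r317 (x : WithZero (Multiplicative ℤ)) :
    ∃ n : ℕ, x ≤ WithZero.exp (n : ℤ) := by
  rcases eq_or_ne x 0 with rfl | hx
  · exact ⟨0, bot_le⟩
  · refine ⟨(WithZero.log x).toNat, ?_⟩
    conv_lhs => rw [← WithZero.exp_log hx]
    rw [WithZero.exp_le_exp]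
    exact Int.self_le_toNat _

theorem isOpen_le_exp_r317 (v : HeightOneSpectrum (𝓞 K)) (n : ℕ) :
    IsOpen {x : v.adicCompletion K | Valued.v x ≤ WithZero.exp (n : ℤ)} := by
  obtain ⟨π, hπ⟩ := valuation_exists_uniformizer K v
  set c : v.adicCompletion K := algebraMap K (v.adicCompletion K) (π ^ n) with hc
  have hcv : Valued.v c = WithZero.exp (-(n : ℤ)) := by
    have e : Valued.v c = v.valuation K (π ^ n) := valuedAdicCompletion_eq_valuation' v _
    rw [e, map_pow, hπ, ← WithZero.exp_nsmul]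
    congr 1
    simp
  have hset : {x : v.adicCompletion K | Valued.v x ≤ WithZero.exp (n : ℤ)}
      = (fun x => c * x) ⁻¹' (v.adicCompletionIntegers K : Set (v.adicCompletion K)) := by
    ext x
    show Valued.v x ≤ WithZero.exp (n : ℤ) ↔ c * x ∈ v.adicCompletionIntegers K
    rw [mem_adicCompletionIntegers, map_mul, hcv]
    constructor
    · intro h
      calc WithZero.exp (-(n : ℤ)) * Valued.v x
          ≤ WithZero.exp (-(n : ℤ)) * WithZero.exp (n : ℤ) := mul_le_mul' le_rfl h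
        _ = 1 := by rw [← WithZero.exp_add, neg_add_cancel, WithZero.exp_zero]
    · intro h
      calc Valued.v x = WithZero.exp (n : ℤ) * (WithZero.exp (-(n : ℤ)) * Valued.v x) := by
            rw [← mul_assoc, ← WithZero.exp_add, add_neg_cancel, WithZero.exp_zero, one_mul]
        _ ≤ WithZero.exp (n : ℤ) * 1 := mul_le_mul' le_rfl h
        _ = WithZero.exp (n : ℤ) := mul_one _
  rw [hset]
  exact (Valued.isOpen_valuationSubring (v.adicCompletion K)).preimage
    (continuous_const.mul continuous_id)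

/-- The elements of the target all of whose entries (and the entries of the inverses) are
bounded by `exp n` at the finite places, by `n` at the infinite places. -/
def bdd_r317 (S : Finset (HeightOneSpectrum (𝓞 K))) (n : ℕ) : Set (Tgt_r317 K S) :=
  {h | (∀ (v : S) (i j : Fin 2),
      Valued.v ((h.1 v).val i j) ≤ WithZero.exp (n : ℤ) ∧
      Valued.v ((h.1 v)⁻¹.val i j) ≤ WithZero.exp (n : ℤ)) ∧
    ∀ (w : InfinitePlace K) (i j : Fin 2),
      ‖(h.2 w).val i j‖ < n ∧ ‖(h.2 w)⁻¹.val i j‖ < n}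

theorem isOpen_bdd_r317 (S : Finset (HeightOneSpectrum (𝓞 K))) (n : ℕ) :
    IsOpen (bdd_r317 (K := K) S n) := by
  have e : bdd_r317 (K := K) S n
      = (⋂ v : S, ⋂ i : Fin 2, ⋂ j : Fin 2,
          ((fun h : Tgt_r317 K S => (h.1 v).val i j) ⁻¹'
              {x | Valued.v x ≤ WithZero.exp (n : ℤ)}
            ∩ (fun h : Tgt_r317 K S => (h.1 v)⁻¹.val i j) ⁻¹'
              {x | Valued.v x ≤ WithZero.exp (n : ℤ)}))
        ∩ ⋂ w : InfinitePlace K, ⋂ i : Fin 2, ⋂ j : Fin 2,
          ((fun h : Tgt_r317 K S => (h.2 w).val i j) ⁻¹' {x | ‖x‖ < n}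
            ∩ (fun h : Tgt_r317 K S => (h.2 w)⁻¹.val i j) ⁻¹' {x | ‖x‖ < n}) := by
    ext h
    simp only [Set.mem_inter_iff, Set.mem_iInter, Set.mem_preimage]
    exact Iff.rfl
  rw [e]
  refine IsOpen.inter ?_ ?_
  · refine isOpen_iInter_of_finite fun v => isOpen_iInter_of_finite fun i =>
      isOpen_iInter_of_finite fun j => IsOpen.inter ?_ ?_
    · refine (isOpen_le_exp_r317 (v : HeightOneSpectrum (𝓞 K)) n).preimage ?_
      exact (Units.continuous_val.comp ((continuous_apply v).comp continuous_fst)).matrix_elem i j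
    · refine (isOpen_le_exp_r317 (v : HeightOneSpectrum (𝓞 K)) n).preimage ?_
      exact (Units.continuous_coe_inv.comp
        ((continuous_apply v).comp continuous_fst)).matrix_elem i j
  · refine isOpen_iInter_of_finite fun w => isOpen_iInter_of_finite fun i =>
      isOpen_iInter_of_finite fun j => IsOpen.inter ?_ ?_
    · refine (isOpen_lt continuous_norm continuous_const).preimage ?_
      exact (Units.continuous_val.comp ((continuous_apply w).comp continuous_snd)).matrix_elem i j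
    · refine (isOpen_lt continuous_norm continuous_const).preimage ?_
      exact (Units.continuous_coe_inv.comp
        ((continuous_apply w).comp continuous_snd)).matrix_elem i j

theorem bdd_mono_r317 (S : Finset (HeightOneSpectrum (𝓞 K))) :
    Monotone (bdd_r317 (K := K) S) := by
  intro n m hnm h hh
  have h1 : WithZero.exp (n : ℤ) ≤ WithZero.exp (m : ℤ) :=
    WithZero.exp_le_exp.2 (by exact_mod_cast hnm)
  have h2 : (n : ℝ) ≤ m := by exact_mod_cast hnm
  exact ⟨fun v i j => ⟨(hh.1 v i j).1.trans h1, (hh.1 v i j).2.trans h1⟩,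
    fun w i j => ⟨(hh.2 w i j).1.trans_le h2, (hh.2 w i j).2.trans_le h2⟩⟩

theorem bdd_cover_r317 (S : Finset (HeightOneSpectrum (𝓞 K))) (h : Tgt_r317 K S) :
    ∃ n : ℕ, h ∈ bdd_r317 (K := K) S n := by
  choose a ha using fun p : S × Fin 2 × Fin 2 =>
    exists_le_exp_r317 (Valued.v ((h.1 p.1).val p.2.1 p.2.2))
  choose b hb using fun p : S × Fin 2 × Fin 2 =>
    exists_le_exp_r317 (Valued.v ((h.1 p.1)⁻¹.val p.2.1 p.2.2))
  choose c hc using fun p : InfinitePlace K × Fin 2 × Fin 2 =>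
    exists_nat_gt ‖(h.2 p.1).val p.2.1 p.2.2‖
  choose d hd using fun p : InfinitePlace K × Fin 2 × Fin 2 =>
    exists_nat_gt ‖(h.2 p.1)⁻¹.val p.2.1 p.2.2‖
  obtain ⟨A, hA⟩ := Finite.exists_le a
  obtain ⟨B, hB⟩ := Finite.exists_le b
  obtain ⟨C, hC⟩ := Finite.exists_le c
  obtain ⟨D, hD⟩ := Finite.exists_le d
  refine ⟨A + B + C + D, fun v i j => ⟨?_, ?_⟩, fun w i j => ⟨?_, ?_⟩⟩
  · refine (ha (v, i, j)).trans (WithZero.exp_le_exp.2 ?_)
    have := hA (v, i, j)
    exact_mod_cast (by omega : a (v, i, j) ≤ A + B + C + D)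
  · refine (hb (v, i, j)).trans (WithZero.exp_le_exp.2 ?_)
    have := hB (v, i, j)
    exact_mod_cast (by omega : b (v, i, j) ≤ A + B + C + D)
  · refine (hc (w, i, j)).trans_le ?_
    have := hC (w, i, j)
    exact_mod_cast (by omega : c (w, i, j) ≤ A + B + C + D)
  · refine (hd (w, i, j)).trans_le ?_
    have := hD (w, i, j)
    exact_mod_cast (by omega : d (w, i, j) ≤ A + B + C + D)

theorem norm_infHom_r317 (w : InfinitePlace K) (x : Adl K) : ‖T5.infHom w x‖ = ‖x.1 w‖ :=
  (InfinitePlace.Completion.isometry_extensionEmbedding w).norm_map_of_map_zero (map_zero _) _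

/-- The entries of the elements of `E_S ∩ p_S⁻¹(bdd n)` lie in the big box. -/
theorem entries_mem_bigBox_r317 (S : Finset (HeightOneSpectrum (𝓞 K))) (n : ℕ) {y : G K}
    (hyE : OutT305 S y) (hb : compHom_r317 S y ∈ bdd_r317 (K := K) S n) (i j : Fin 2) :
    (y : Matrix (Fin 2) (Fin 2) (Adl K)) i j ∈ bigBox_r317 S n ∧
      ((y⁻¹ : G K) : Matrix (Fin 2) (Fin 2) (Adl K)) i j ∈ bigBox_r317 S n := by
  refine ⟨⟨fun w => ?_, fun v hv => ?_, fun v hv => ?_⟩,
    ⟨fun w => ?_, fun v hv => ?_, fun v hv => ?_⟩⟩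
  · have h1 := (hb.2 w i j).1
    have e : ((compHom_r317 S y).2 w).val i j
        = T5.infHom w ((y : Matrix (Fin 2) (Fin 2) (Adl K)) i j) := rfl
    rw [e, norm_infHom_r317] at h1
    exact h1.le
  · exact (hb.1 ⟨v, hv⟩ i j).1
  · exact (mem_adicCompletionIntegers _ _ _).1 ((hyE v hv).1 i j)
  · have h1 := (hb.2 w i j).2
    have e : ((compHom_r317 S y).2 w)⁻¹.val i j
        = T5.infHom w (((y⁻¹ : G K) : Matrix (Fin 2) (Fin 2) (Adl K)) i j) := by
      have e' : ((compHom_r317 S y).2 w)⁻¹ = infGL305 w y⁻¹ := (map_inv (infGL305 w) y).symm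
      rw [e']
      rfl
    rw [e, norm_infHom_r317] at h1
    exact h1.le
  · have h1 := (hb.1 ⟨v, hv⟩ i j).2
    have e' : ((compHom_r317 S y).1 ⟨v, hv⟩)⁻¹ = finGL305 v y⁻¹ := (map_inv (finGL305 v) y).symm
    rw [e'] at h1
    exact h1
  · exact (mem_adicCompletionIntegers _ _ _).1 ((hyE v hv).2 i j)

/-- **`p_S` is proper on `E_S`.** -/
theorem proper_compHom_r317 (S : Finset (HeightOneSpectrum (𝓞 K))) (C : Set (Tgt_r317 K S))
    (hC : IsCompact C) :
    ∃ C' : Set (G K), IsCompact C' ∧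
      (compHom_r317 S) ⁻¹' C ∩ (outSub_r317 S : Set (G K)) ⊆ C' := by
  obtain ⟨n, hn⟩ := hC.elim_directed_cover (bdd_r317 (K := K) S) (isOpen_bdd_r317 S)
    (fun h _ => Set.mem_iUnion.2 (bdd_cover_r317 S h)) (bdd_mono_r317 S).directed_le
  obtain ⟨A, hA, hsub⟩ := bigBox_subset_compact_r317 S n
  refine ⟨_, isCompact_entries_r317 hA, ?_⟩
  rintro y ⟨hyC, hyE⟩ i j
  have h := entries_mem_bigBox_r317 S n hyE (hn hyC) i j
  exact ⟨hsub h.1, hsub h.2⟩

/-! ## 6. Gluing local components -/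

theorem adl_ext_r317 {x y : Adl K} (h1 : ∀ w : InfinitePlace K, x.1 w = y.1 w)
    (h2 : ∀ v : HeightOneSpectrum (𝓞 K), x.2 v = y.2 v) : x = y :=
  Prod.ext (funext h1) (RestrictedProduct.ext _ _ h2)

/-- The component at the infinite place `w`, in the completion. -/
def evI_r317 (w : InfinitePlace K) : Adl K →+* w.Completion :=
  (Pi.evalRingHom (fun v : InfinitePlace K => v.Completion) w).comp
    (RingHom.fst (InfiniteAdeleRing K) (FiniteAdeleRing (𝓞 K) K))

theorem matrix_ext_r317 {A B : Matrix (Fin 2) (Fin 2) (Adl K)}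
    (hI : ∀ w : InfinitePlace K, A.map (evI_r317 w) = B.map (evI_r317 w))
    (hF : ∀ v : HeightOneSpectrum (𝓞 K), A.map (T5.finHom v) = B.map (T5.finHom v)) :
    A = B := by
  ext i j
  refine adl_ext_r317 (fun w => ?_) (fun v => ?_)
  · exact congrFun (congrFun (hI w) i) j
  · exact congrFun (congrFun (hF v) i) j

/-- The adele with the components `a w` and `f v` (`f v` integral outside `S`). -/
def glueEntry_r317 (S : Finset (HeightOneSpectrum (𝓞 K)))
    (a : ∀ w : InfinitePlace K, w.Completion)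
    (f : ∀ v : HeightOneSpectrum (𝓞 K), v.adicCompletion K)
    (hf : ∀ v : HeightOneSpectrum (𝓞 K), v ∉ S → f v ∈ v.adicCompletionIntegers K) : Adl K :=
  (a, RestrictedProduct.mk f (by
    rw [Filter.eventually_cofinite]
    refine S.finite_toSet.subset fun v hv => ?_
    by_contra hvS
    exact hv (hf v hvS)))

theorem one_val_integral_r317 (v : HeightOneSpectrum (𝓞 K)) (i j : Fin 2) :
    (1 : GL (Fin 2) (v.adicCompletion K)).val i j ∈ v.adicCompletionIntegers K := by
  show (1 : Matrix (Fin 2) (Fin 2) (v.adicCompletion K)) i j ∈ _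
  rw [Matrix.one_apply]
  split_ifs
  · exact one_mem _
  · exact zero_mem _

/-- The matrix with the components `X v` (trivial outside `S`) and `Y w`. -/
def glueMat_r317 (S : Finset (HeightOneSpectrum (𝓞 K)))
    (X : ∀ v : HeightOneSpectrum (𝓞 K), GL (Fin 2) (v.adicCompletion K))
    (hX : ∀ v : HeightOneSpectrum (𝓞 K), v ∉ S → X v = 1)
    (Y : ∀ w : InfinitePlace K, GL (Fin 2) w.Completion) : Matrix (Fin 2) (Fin 2) (Adl K) :=
  fun i j => glueEntry_r317 S (fun w => (Y w).val i j) (fun v => (X v).val i j)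
    (fun v hv => by rw [hX v hv]; exact one_val_integral_r317 v i j)

theorem glueMat_map_fin_r317 (S : Finset (HeightOneSpectrum (𝓞 K)))
    (X : ∀ v : HeightOneSpectrum (𝓞 K), GL (Fin 2) (v.adicCompletion K))
    (hX : ∀ v : HeightOneSpectrum (𝓞 K), v ∉ S → X v = 1)
    (Y : ∀ w : InfinitePlace K, GL (Fin 2) w.Completion) (v : HeightOneSpectrum (𝓞 K)) :
    (glueMat_r317 S X hX Y).map (T5.finHom v) = (X v).val := rfl

theorem glueMat_map_inf_r317 (S : Finset (HeightOneSpectrum (𝓞 K)))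
    (X : ∀ v : HeightOneSpectrum (𝓞 K), GL (Fin 2) (v.adicCompletion K))
    (hX : ∀ v : HeightOneSpectrum (𝓞 K), v ∉ S → X v = 1)
    (Y : ∀ w : InfinitePlace K, GL (Fin 2) w.Completion) (w : InfinitePlace K) :
    (glueMat_r317 S X hX Y).map (evI_r317 w) = (Y w).val := rfl

theorem one_map_fin_r317 (v : HeightOneSpectrum (𝓞 K)) :
    (1 : Matrix (Fin 2) (Fin 2) (Adl K)).map (T5.finHom v) = 1 := by
  rw [Matrix.map_one] <;> simp

theorem one_map_inf_r317 (w : InfinitePlace K) :
    (1 : Matrix (Fin 2) (Fin 2) (Adl K)).map (evI_r317 w) = 1 := by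
  rw [Matrix.map_one] <;> simp

theorem glueMat_mul_r317 (S : Finset (HeightOneSpectrum (𝓞 K)))
    (X X' : ∀ v : HeightOneSpectrum (𝓞 K), GL (Fin 2) (v.adicCompletion K))
    (hX : ∀ v : HeightOneSpectrum (𝓞 K), v ∉ S → X v = 1)
    (hX' : ∀ v : HeightOneSpectrum (𝓞 K), v ∉ S → X' v = 1)
    (Y Y' : ∀ w : InfinitePlace K, GL (Fin 2) w.Completion)
    (h1 : ∀ v, X v * X' v = 1) (h2 : ∀ w, Y w * Y' w = 1) :
    glueMat_r317 S X hX Y * glueMat_r317 S X' hX' Y' = 1 := by
  apply matrix_ext_r317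
  · intro w
    rw [Matrix.map_mul, glueMat_map_inf_r317, glueMat_map_inf_r317, one_map_inf_r317,
      ← Units.val_mul, h2 w]
    rfl
  · intro v
    rw [Matrix.map_mul, glueMat_map_fin_r317, glueMat_map_fin_r317, one_map_fin_r317,
      ← Units.val_mul, h1 v]
    rfl

/-- **THE GLUED ELEMENT** of `GL₂(𝔸_K)` with the components `X v` (trivial outside `S`), `Y w`. -/
def glue_r317 (S : Finset (HeightOneSpectrum (𝓞 K)))
    (X : ∀ v : HeightOneSpectrum (𝓞 K), GL (Fin 2) (v.adicCompletion K))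
    (hX : ∀ v : HeightOneSpectrum (𝓞 K), v ∉ S → X v = 1)
    (Y : ∀ w : InfinitePlace K, GL (Fin 2) w.Completion) : G K where
  val := glueMat_r317 S X hX Y
  inv := glueMat_r317 S (fun v => (X v)⁻¹) (fun v hv => by rw [hX v hv, inv_one])
    (fun w => (Y w)⁻¹)
  val_inv := glueMat_mul_r317 S _ _ _ _ _ _ (fun v => mul_inv_cancel _) (fun w => mul_inv_cancel _)
  inv_val := glueMat_mul_r317 S _ _ _ _ _ _ (fun v => inv_mul_cancel _) (fun w => inv_mul_cancel _)

theorem finGL_glue_r317 (S : Finset (HeightOneSpectrum (𝓞 K)))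
    (X : ∀ v : HeightOneSpectrum (𝓞 K), GL (Fin 2) (v.adicCompletion K))
    (hX : ∀ v : HeightOneSpectrum (𝓞 K), v ∉ S → X v = 1)
    (Y : ∀ w : InfinitePlace K, GL (Fin 2) w.Completion) (v : HeightOneSpectrum (𝓞 K)) :
    finGL305 v (glue_r317 S X hX Y) = X v :=
  Units.ext rfl

theorem infGL_glue_r317 (S : Finset (HeightOneSpectrum (𝓞 K)))
    (X : ∀ v : HeightOneSpectrum (𝓞 K), GL (Fin 2) (v.adicCompletion K))
    (hX : ∀ v : HeightOneSpectrum (𝓞 K), v ∉ S → X v = 1)
    (Y : ∀ w : InfinitePlace K, GL (Fin 2) w.Completion) (w : InfinitePlace K) :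
    infGL305 w (glue_r317 S X hX Y)
      = Matrix.GeneralLinearGroup.map (InfinitePlace.Completion.extensionEmbedding w) (Y w) :=
  Units.ext rfl

theorem glue_mem_outSub_r317 (S : Finset (HeightOneSpectrum (𝓞 K)))
    (X : ∀ v : HeightOneSpectrum (𝓞 K), GL (Fin 2) (v.adicCompletion K))
    (hX : ∀ v : HeightOneSpectrum (𝓞 K), v ∉ S → X v = 1)
    (Y : ∀ w : InfinitePlace K, GL (Fin 2) w.Completion) :
    glue_r317 S X hX Y ∈ outSub_r317 S := by
  intro v hv
  have h1 : finComp v (glue_r317 S X hX Y) = 1 := by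
    rw [← coe_finGL_r317, finGL_glue_r317, hX v hv]; rfl
  have h2 : finComp v (glue_r317 S X hX Y)⁻¹ = 1 := by
    rw [← coe_finGL_r317, map_inv, finGL_glue_r317, hX v hv, inv_one]; rfl
  refine ⟨fun i j => ?_, fun i j => ?_⟩
  · rw [h1]; exact one_val_integral_r317 v i j
  · rw [h2]; exact one_val_integral_r317 v i j

/-- The prescribed finite components: `x v` for `v ∈ S`, `1` outside. -/
def compAt_r317 (S : Finset (HeightOneSpectrum (𝓞 K)))
    (x : ∀ v : S, GL (Fin 2) ((v : HeightOneSpectrum (𝓞 K)).adicCompletion K))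
    (v : HeightOneSpectrum (𝓞 K)) : GL (Fin 2) (v.adicCompletion K) :=
  open Classical in if h : v ∈ S then x ⟨v, h⟩ else 1

theorem compAt_of_mem_r317 (S : Finset (HeightOneSpectrum (𝓞 K)))
    (x : ∀ v : S, GL (Fin 2) ((v : HeightOneSpectrum (𝓞 K)).adicCompletion K)) (v : S) :
    compAt_r317 S x v = x v := by
  unfold compAt_r317
  rw [dif_pos v.2]

theorem compAt_of_notMem_r317 (S : Finset (HeightOneSpectrum (𝓞 K)))
    (x : ∀ v : S, GL (Fin 2) ((v : HeightOneSpectrum (𝓞 K)).adicCompletion K))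
    (v : HeightOneSpectrum (𝓞 K)) (hv : v ∉ S) : compAt_r317 S x v = 1 := by
  unfold compAt_r317
  rw [dif_neg hv]

/-- The preimage of `z ∈ GL₂(ℂ)` in `GL₂(K_w)` at a complex place. -/
def cplxLift_r317 {w : InfinitePlace K} (hw : w.IsComplex) (z : GL (Fin 2) ℂ) :
    GL (Fin 2) w.Completion :=
  Matrix.GeneralLinearGroup.map
    ((InfinitePlace.Completion.ringEquivComplexOfIsComplex hw).symm : ℂ →+* w.Completion) z

theorem map_cplxLift_r317 {w : InfinitePlace K} (hw : w.IsComplex) (z : GL (Fin 2) ℂ) :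
    Matrix.GeneralLinearGroup.map (InfinitePlace.Completion.extensionEmbedding w)
      (cplxLift_r317 hw z) = z := by
  apply Units.ext
  ext i j
  exact (InfinitePlace.Completion.ringEquivComplexOfIsComplex hw).apply_symm_apply (z.val i j)

/-- **`p_S` maps `E_S` ONTO the target** (`K` totally complex). -/
theorem exists_mem_outT_r317 (hK : TotCplx K) (S : Finset (HeightOneSpectrum (𝓞 K)))
    (h : Tgt_r317 K S) : ∃ y ∈ outSub_r317 S, compHom_r317 S y = h := by
  refine ⟨glue_r317 S (compAt_r317 S h.1) (compAt_of_notMem_r317 S h.1)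
    (fun w => cplxLift_r317 (hK w) (h.2 w)), glue_mem_outSub_r317 _ _ _ _, ?_⟩
  refine Prod.ext (funext fun v => ?_) (funext fun w => ?_)
  · show finGL305 (v : HeightOneSpectrum (𝓞 K)) _ = h.1 v
    rw [finGL_glue_r317, compAt_of_mem_r317]
  · show infGL305 w _ = h.2 w
    rw [infGL_glue_r317, map_cplxLift_r317]

end Fermat.Agent.LT.T7.H317

end
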